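import Fermat.Agent.QuaternionJL.Orders
import Fermat.Agent.Forms3.HurwitzMoments

/-!
# Factorising a Hurwitz quaternion by norms

An element of norm `m n` with `m`, `n` coprime has exactly one left divisor of norm `m` up to right
units. At an odd prime `p` an element of norm `p ^ (r + 2)` has one left divisor of norm `p`, or
all `p + 1` of them if it is a multiple of `p`.
-/

set_option autoImplicit false
set_option linter.unusedSectionVars false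
set_option linter.style.haveILetI false

noncomputable section

open Quaternion
open scoped Quaternion Classical
open FA.HurwitzQ (Hz exists_generator exists_norm exists_two_re star_mem RI units)
open FA.QuaternionJL

namespace FA.QuaternionJLSystems

/-- The left divisors of norm `m` of a quaternion. -/
def leftDivisors (m : ℕ) (x : ℍ[ℚ]) : Finset ℍ[ℚ] := (normHz m).filter fun y => y⁻¹ * x ∈ Hz

theorem normHz_ne_zero {n : ℕ} (hn : n ≠ 0) {x : ℍ[ℚ]} (hx : x ∈ normHz n) : x ≠ 0 := fun h => by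
  have := (mem_normHz.1 hx).2
  rw [h, map_zero] at this
  exact hn (by exact_mod_cast this.symm)

theorem natCast_mem_Hz (n : ℕ) : (n : ℍ[ℚ]) ∈ Hz := natCast_mem Hz n

theorem normSq_natCast' (n : ℕ) : normSq (n : ℍ[ℚ]) = ((n * n : ℕ) : ℚ) := by
  rw [Quaternion.normSq_natCast]
  push_cast
  ring

/-- The generator of the right ideal of `x` and `m`. -/
theorem exists_gcd_gen {m : ℕ} (hm : m ≠ 0) {x : ℍ[ℚ]} (hx : x ∈ Hz) :
    ∃ β ∈ Hz, β ≠ 0 ∧ (∃ a ∈ Hz, ∃ b ∈ Hz, β = x * a + (m : ℍ[ℚ]) * b) ∧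
      (∃ h ∈ Hz, x = β * h) ∧ ∃ h ∈ Hz, (m : ℍ[ℚ]) = β * h := by
  set S : Set ℍ[ℚ] := {s | ∃ a ∈ Hz, ∃ b ∈ Hz, s = x * a + (m : ℍ[ℚ]) * b}
  have hmS : (m : ℍ[ℚ]) ∈ S := ⟨0, zero_mem _, 1, one_mem _, by simp⟩
  have hxS : x ∈ S := ⟨1, one_mem _, 0, zero_mem _, by simp⟩
  obtain ⟨β, hβ, hβ0, hS⟩ := exists_generator (S := S)
    (fun s ⟨a, ha, b, hb, e⟩ => e ▸ add_mem (mul_mem hx ha) (mul_mem (natCast_mem_Hz m) hb))
    (fun s ⟨a, ha, b, hb, e⟩ t ⟨a', ha', b', hb', e'⟩ =>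
      ⟨a - a', sub_mem ha ha', b - b', sub_mem hb hb', by rw [e, e', mul_sub, mul_sub]; abel⟩)
    (fun s ⟨a, ha, b, hb, e⟩ h hh =>
      ⟨a * h, mul_mem ha hh, b * h, mul_mem hb hh, by rw [e, add_mul, mul_assoc, mul_assoc]⟩)
    ⟨_, hmS, fun h => hm (by simpa using congrArg (fun q : ℍ[ℚ] => q.re) h)⟩
  obtain ⟨a, ha, b, hb, e⟩ := hβ
  rw [hS] at hxS hmS
  exact ⟨β, e ▸ add_mem (mul_mem hx ha) (mul_mem (natCast_mem_Hz m) hb), hβ0, ⟨a, ha, b, hb, e⟩,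
    hxS, hmS⟩

theorem dvd_norm_comb {m N : ℕ} (hmN : m ∣ N) {x a b : ℍ[ℚ]} (hx : x ∈ Hz) (ha : a ∈ Hz)
    (hb : b ∈ Hz) (hN : normSq x = (N : ℚ)) {k : ℕ}
    (hk : normSq (x * a + (m : ℍ[ℚ]) * b) = (k : ℚ)) : m ∣ k := by
  obtain ⟨A, hA⟩ := exists_norm ha
  obtain ⟨B, hB⟩ := exists_norm hb
  obtain ⟨T, hT⟩ := exists_two_re (mul_mem (mul_mem hx ha) (star_mem hb))
  have e : (k : ℚ) = (N : ℚ) * A + (m : ℚ) * T + (m : ℚ) ^ 2 * B := by
    rw [← hk, ← hN, ← hA, ← hB, ← hT, show (m : ℍ[ℚ]) * b = (m : ℚ) • b by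
      rw [← Quaternion.coe_natCast, Quaternion.coe_mul_eq_smul]]
    simp only [normSq_def', mul_assoc]
    simp
    ring
  have e' : (k : ℤ) = (N : ℤ) * A + (m : ℤ) * T + (m : ℤ) ^ 2 * B := by exact_mod_cast e
  obtain ⟨c, rfl⟩ := hmN
  exact Int.natCast_dvd_natCast.1 ⟨(c : ℤ) * A + T + (m : ℤ) * B, by
    rw [e']; push_cast; ring⟩

theorem norm_dvd_of_eq {β h : ℍ[ℚ]} (hh : h ∈ Hz) {k N : ℕ} (hk : normSq β = (k : ℚ))
    (hN : normSq (β * h) = (N : ℚ)) : k ∣ N := by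
  obtain ⟨l, hl⟩ := exists_norm hh
  refine ⟨l, ?_⟩
  rw [map_mul, hk, hl] at hN
  exact_mod_cast hN.symm

theorem unit_mem {u : ℍ[ℚ]} : u ∈ units ↔ u ∈ normHz 1 := by
  rw [mem_normHz, Nat.cast_one]
  rfl

/-- **Unique divisors.** -/
theorem card_leftDivisors {m N : ℕ} (hm : m ≠ 0) (hmN : m ∣ N) {x : ℍ[ℚ]} (hx : x ∈ Hz)
    (hN : normSq x = (N : ℚ))
    (hmax : ∀ β ∈ Hz, (∃ h ∈ Hz, x = β * h) → (∃ h ∈ Hz, (m : ℍ[ℚ]) = β * h) →
      ∀ k : ℕ, normSq β = (k : ℚ) → m ∣ k → k = m) :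
    (leftDivisors m x).card = 24 := by
  obtain ⟨β, hβ, hβ0, ⟨a, ha, b, hb, hab⟩, hxβ, hmβ⟩ := exists_gcd_gen hm hx
  obtain ⟨k, hk⟩ := exists_norm hβ
  have hkm : k = m := hmax β hβ hxβ hmβ k hk (dvd_norm_comb hmN hx ha hb hN (hab ▸ hk))
  subst hkm
  have hset : leftDivisors k x = (normHz 1).map ⟨(β * ·), mul_right_injective₀ hβ0⟩ := by
    ext y
    simp only [leftDivisors, Finset.mem_filter, Finset.mem_map, Function.Embedding.coeFn_mk]
    constructor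
    · rintro ⟨hy, hyx⟩
      obtain ⟨hyH, hyn⟩ := mem_normHz.1 hy
      have hy0 := normHz_ne_zero hm hy
      have hym : y⁻¹ * (k : ℍ[ℚ]) = star y := by
        rw [show (k : ℍ[ℚ]) = y * star y by rw [self_mul_star, hyn, Quaternion.coe_natCast],
          inv_mul_cancel_left₀ hy0]
      set q := y⁻¹ * β
      have hq : q ∈ Hz := by
        simp only [q, hab, mul_add, ← mul_assoc, hym]
        exact add_mem (mul_mem hyx ha) (mul_mem (star_mem hyH) hb)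
      have hq1 : normSq q = 1 := by
        rw [map_mul, map_inv₀, hyn, hk, inv_mul_cancel₀ (Nat.cast_ne_zero.2 hm)]
      obtain ⟨hi, -⟩ := FA.HurwitzQ.unit_inv (e := q) ⟨hq, hq1⟩
      refine ⟨q⁻¹, unit_mem.1 hi, ?_⟩
      rw [show q = y⁻¹ * β from rfl, mul_inv_rev, inv_inv, mul_inv_cancel_left₀ hβ0]
    · rintro ⟨u, hu, rfl⟩
      obtain ⟨huH, hu1⟩ := mem_normHz.1 hu
      obtain ⟨h, hh, e⟩ := hxβ
      obtain ⟨hi, -⟩ := FA.HurwitzQ.unit_inv (unit_mem.2 hu)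
      refine ⟨mem_normHz.2 ⟨mul_mem hβ huH, by rw [map_mul, hk, hu1, Nat.cast_one, mul_one]⟩, ?_⟩
      rw [e, mul_inv_rev, mul_assoc, inv_mul_cancel_left₀ hβ0]
      exact mul_mem hi.1 hh
  rw [hset, Finset.card_map, card_units_values.1]

/-- **Coprime norms.** -/
theorem card_leftDivisors_coprime {m n : ℕ} (hm : m ≠ 0) (hmn : m.Coprime n) {x : ℍ[ℚ]}
    (hx : x ∈ normHz (m * n)) : (leftDivisors m x).card = 24 := by
  obtain ⟨hxH, hxn⟩ := mem_normHz.1 hx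
  refine card_leftDivisors hm (dvd_mul_right m n) hxH hxn
    fun β hβ ⟨h, hh, e⟩ ⟨h', hh', e'⟩ k hk hmk => ?_
  refine Nat.dvd_antisymm ?_ hmk
  have h1 : k ∣ m * n := norm_dvd_of_eq hh hk (e ▸ hxn)
  have h2 : k ∣ m * m := norm_dvd_of_eq hh' hk (e' ▸ normSq_natCast' m)
  have := Nat.dvd_gcd h2 h1
  rwa [Nat.gcd_mul_left, Nat.coprime_iff_gcd_eq_one.1 hmn, mul_one] at this

/-- **A prime, no multiple.** -/
theorem card_leftDivisors_prime {p r : ℕ} (hp : p.Prime) {x : ℍ[ℚ]}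
    (hx : x ∈ normHz (p ^ (r + 2))) (hnot : ∀ h ∈ Hz, x ≠ (p : ℍ[ℚ]) * h) :
    (leftDivisors p x).card = 24 := by
  obtain ⟨hxH, hxn⟩ := mem_normHz.1 hx
  refine card_leftDivisors hp.ne_zero (dvd_pow_self p (by omega)) hxH hxn
    fun β hβ ⟨h, hh, e⟩ ⟨h', hh', e'⟩ k hk hpk => ?_
  have h2 : k ∣ p * p := norm_dvd_of_eq hh' hk (e' ▸ normSq_natCast' p)
  rw [← pow_two] at h2
  obtain ⟨i, hi, rfl⟩ := (Nat.dvd_prime_pow hp).1 h2
  interval_cases i
  · rw [pow_zero] at hpk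
    exact absurd (Nat.dvd_one.1 hpk) hp.ne_one
  · exact pow_one p
  · exfalso
    have hu : normSq h' = 1 := by
      have := congrArg normSq e'
      rw [normSq_natCast', map_mul, hk] at this
      have hp2 : (p : ℚ) ^ 2 ≠ 0 := pow_ne_zero 2 (Nat.cast_ne_zero.2 hp.ne_zero)
      refine mul_left_cancel₀ hp2 ?_
      push_cast at this
      linear_combination -this
    have hh0 : h' ≠ 0 := fun e0 => by simp [e0] at hu
    obtain ⟨hi', -⟩ := FA.HurwitzQ.unit_inv (e := h') ⟨hh', hu⟩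
    refine hnot (h'⁻¹ * h) (mul_mem hi'.1 hh) ?_
    rw [e', mul_assoc, mul_inv_cancel_left₀ hh0]
    exact e

/-- **A multiple of the prime.** -/
theorem leftDivisors_mul {p : ℕ} (hp : p ≠ 0) {h : ℍ[ℚ]} (hh : h ∈ Hz) :
    leftDivisors p ((p : ℍ[ℚ]) * h) = normHz p := by
  refine Finset.filter_true_of_mem fun y hy => ?_
  obtain ⟨hyH, hyn⟩ := mem_normHz.1 hy
  rw [← mul_assoc, show (p : ℍ[ℚ]) = y * star y by
      rw [self_mul_star, hyn, Quaternion.coe_natCast],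
    inv_mul_cancel_left₀ (normHz_ne_zero hp hy)]
  exact mul_mem (star_mem hyH) hh

theorem card_normHz (n : ℕ) : (normHz n).card = (FA.HurwitzQ.fours (4 * n)).card := by
  rw [normHz, Finset.card_map]
  refine Finset.card_nbij' (fun p => (p.1, p.2.1, p.2.2.1, p.2.2.2))
    (fun v => ⟨v.1, v.2.1, v.2.2.1, v.2.2.2⟩) (fun p hp => ?_) (fun v hv => ?_)
    (fun p _ => rfl) fun v _ => rfl
  · rw [Finset.mem_coe, mem_normPts, sqNorm] at hp
    rw [Finset.mem_coe, FA.HurwitzQ.mem_fours]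
    push_cast
    linarith
  · rw [Finset.mem_coe, FA.HurwitzQ.mem_fours] at hv
    rw [Finset.mem_coe, mem_normPts, sqNorm]
    push_cast at hv
    linarith

theorem card_normHz_prime {p : ℕ} (hp : p.Prime) (h2 : p ≠ 2) :
    (normHz p).card = 24 * (p + 1) := by
  rw [card_normHz, FA.HurwitzQ.card_fours_four_odd (hp.odd_of_ne_two h2),
    ArithmeticFunction.sigma_one_apply, hp.sum_divisors]

/-- **Products of elements of two norms.** -/
theorem sum_normHz_mul {M : Type*} [AddCommMonoid M] {m n : ℕ} (hm : m ≠ 0) (F : ℍ[ℚ] → M) :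
    ∑ y ∈ normHz m, ∑ z ∈ normHz n, F (y * z) =
      ∑ x ∈ normHz (m * n), (leftDivisors m x).card • F x := by
  rw [← Finset.sum_product' (f := fun y z => F (y * z)),
    ← Finset.sum_fiberwise_of_maps_to (g := fun q : ℍ[ℚ] × ℍ[ℚ] => q.1 * q.2)
      (t := normHz (m * n)) (fun q hq => ?_)]
  · refine Finset.sum_congr rfl fun x hx => ?_
    obtain ⟨hxH, hxn⟩ := mem_normHz.1 hx
    rw [← Finset.sum_const]
    have key : ∀ q ∈ (normHz m ×ˢ normHz n).filter (fun q => q.1 * q.2 = x),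
        q.1 ∈ normHz m ∧ q.2 ∈ normHz n ∧ q.1⁻¹ * x = q.2 := fun q hq => by
      obtain ⟨hq', e⟩ := Finset.mem_filter.1 hq
      obtain ⟨h1, h2⟩ := Finset.mem_product.1 hq'
      exact ⟨h1, h2, by rw [← e, inv_mul_cancel_left₀ (normHz_ne_zero hm h1)]⟩
    refine Finset.sum_nbij' (fun q => q.1) (fun y => (y, y⁻¹ * x)) (fun q hq => ?_)
      (fun y hy => ?_) (fun q hq => ?_) (fun y _ => rfl) fun q hq => ?_
    · obtain ⟨h1, h2, e⟩ := key q (Finset.mem_coe.1 hq)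
      refine Finset.mem_coe.2 (Finset.mem_filter.2 ⟨h1, ?_⟩)
      rw [e]
      exact (mem_normHz.1 h2).1
    · obtain ⟨hy', hyx⟩ := Finset.mem_filter.1 (Finset.mem_coe.1 hy)
      refine Finset.mem_coe.2 (Finset.mem_filter.2 ⟨Finset.mem_product.2 ⟨hy', mem_normHz.2
        ⟨hyx, ?_⟩⟩, mul_inv_cancel_left₀ (normHz_ne_zero hm hy') x⟩)
      rw [map_mul, map_inv₀, (mem_normHz.1 hy').2, hxn, Nat.cast_mul,
        inv_mul_cancel_left₀ (Nat.cast_ne_zero.2 hm)]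
    · exact Prod.ext rfl (key q (Finset.mem_coe.1 hq)).2.2
    · rw [(Finset.mem_filter.1 hq).2]
  · obtain ⟨h1, h2⟩ := Finset.mem_product.1 hq
    obtain ⟨a1, a2⟩ := mem_normHz.1 h1
    obtain ⟨b1, b2⟩ := mem_normHz.1 h2
    exact mem_normHz.2 ⟨mul_mem a1 b1, by rw [map_mul, a2, b2, Nat.cast_mul]⟩

end FA.QuaternionJLSystems

end
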