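import Fermat.Agent.RingIdentities.TracePowers
import Mathlib.LinearAlgebra.Charpoly.ToMatrix
import Mathlib.LinearAlgebra.Trace
import Mathlib.Analysis.Complex.Basic

/-!
# The traces of the powers determine the characteristic polynomial

In characteristic zero two matrices of the same size with the same traces of powers have the same
characteristic polynomial.
-/

set_option autoImplicit false
set_option linter.unusedSectionVars false
set_option linter.style.haveILetI false

noncomputable section

open Polynomial Matrix

namespace FA.QuaternionJLSystems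

variable {n : Type*} [Fintype n] [DecidableEq n]

/-- The coefficients of the adjugate of the characteristic matrix. -/
def adjCoeff (M : Matrix n n ℂ) (j : ℕ) : Matrix n n ℂ :=
  (matPolyEquiv (adjugate (charmatrix M))).coeff j

theorem adjCoeff_facts (M : Matrix n n ℂ) :
    (∀ j, adjCoeff M j = adjCoeff M (j + 1) * M +
      M.charpoly.coeff (j + 1) • (1 : Matrix n n ℂ)) ∧
    (∀ j : ℕ, ((j : ℂ) - Fintype.card n) * M.charpoly.coeff j = (adjCoeff M j * M).trace) := by
  set B := matPolyEquiv (adjugate (charmatrix M)) with hB
  have hmul : B * (X - C M) = matPolyEquiv (M.charpoly • (1 : Matrix n n ℂ[X])) := by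
    rw [hB, ← matPolyEquiv_charmatrix, ← map_mul, adjugate_mul, Matrix.charpoly]
  have hrec : ∀ j, B.coeff j = B.coeff (j + 1) * M +
      M.charpoly.coeff (j + 1) • (1 : Matrix n n ℂ) := fun j => by
    have := congrArg (Polynomial.coeff · (j + 1)) hmul
    simp only [mul_sub, coeff_sub, coeff_mul_X, coeff_mul_C, matPolyEquiv_smul_one, coeff_map]
      at this
    rw [eq_add_of_sub_eq this, Algebra.algebraMap_eq_smul_one, add_comm]
  refine ⟨hrec, fun j => ?_⟩
  cases j with
  | zero =>
    have h0 := congrArg (Polynomial.coeff · 0) hmul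
    simp only [mul_sub, coeff_sub, mul_coeff_zero, coeff_X_zero, mul_zero, coeff_C_zero, zero_sub,
      matPolyEquiv_smul_one, coeff_map] at h0
    have h1 := congrArg Matrix.trace h0
    rw [Algebra.algebraMap_eq_smul_one, trace_smul, trace_one, trace_neg, smul_eq_mul] at h1
    show _ = (B.coeff 0 * M).trace
    push_cast
    linear_combination h1
  | succ j =>
    have hder : (B.coeff j).trace = ((j : ℂ) + 1) * M.charpoly.coeff (j + 1) := by
      have := congrArg (Polynomial.coeff · j)
        (Fermat.Agent.RingIdentities.derivative_charpoly_eq_trace M)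
      simp only [coeff_derivative, Matrix.trace, diag_apply, finsetSum_coeff] at this
      rw [mul_comm, this, Matrix.trace]
      simp [hB, matPolyEquiv_coeff_apply]
    rw [hrec j, trace_add, trace_smul, trace_one, smul_eq_mul] at hder
    show _ = (B.coeff (j + 1) * M).trace
    push_cast
    linear_combination -hder

/-- **Traces of powers determine the characteristic polynomial.** -/
theorem charpoly_eq_of_trace_pow {m : Type*} [Fintype m] [DecidableEq m] {M : Matrix n n ℂ}
    {M' : Matrix m m ℂ} (hcard : Fintype.card n = Fintype.card m)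
    (h : ∀ r : ℕ, (M ^ r).trace = (M' ^ r).trace) : M.charpoly = M'.charpoly := by
  obtain ⟨hrec, hc⟩ := adjCoeff_facts M
  obtain ⟨hrec', hc'⟩ := adjCoeff_facts M'
  set K := (matPolyEquiv (adjugate (charmatrix M))).natDegree +
    (matPolyEquiv (adjugate (charmatrix M'))).natDegree + Fintype.card n + 1 with hK
  have key : ∀ d j, K ≤ j + d →
      (∀ l, (adjCoeff M j * M ^ l).trace = (adjCoeff M' j * M' ^ l).trace) ∧
        M.charpoly.coeff j = M'.charpoly.coeff j := by
    intro d
    induction d with
    | zero =>
      intro j hj
      constructor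
      · intro l
        rw [adjCoeff, adjCoeff, coeff_eq_zero_of_natDegree_lt (by omega),
          coeff_eq_zero_of_natDegree_lt (by omega)]
        simp
      · rw [coeff_eq_zero_of_natDegree_lt (by rw [charpoly_natDegree_eq_dim]; omega),
          coeff_eq_zero_of_natDegree_lt (by rw [charpoly_natDegree_eq_dim]; omega)]
    | succ d ih =>
      intro j hj
      obtain ⟨hT, hcc⟩ := ih (j + 1) (by omega)
      have hT' : ∀ l, (adjCoeff M j * M ^ l).trace = (adjCoeff M' j * M' ^ l).trace := fun l => by
        rw [hrec j, hrec' j, add_mul, add_mul, trace_add, trace_add, mul_assoc, mul_assoc,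
          ← pow_succ', ← pow_succ', hT (l + 1), Matrix.smul_mul, Matrix.smul_mul, one_mul, one_mul,
          trace_smul, trace_smul, h l, hcc]
      refine ⟨hT', ?_⟩
      rcases lt_trichotomy j (Fintype.card n) with hlt | rfl | hgt
      · have hne : ((j : ℂ) - Fintype.card n) ≠ 0 := by
          rw [sub_ne_zero]
          exact_mod_cast hlt.ne
        refine mul_left_cancel₀ hne ?_
        have e := hc' j
        rw [← hcard] at e
        rw [hc j, e]
        simpa using hT' 1
      · have e := M.charpoly_monic.coeff_natDegree
        have e' := M'.charpoly_monic.coeff_natDegree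
        rw [charpoly_natDegree_eq_dim] at e e'
        rw [e, hcard, e']
      · rw [coeff_eq_zero_of_natDegree_lt (by rw [charpoly_natDegree_eq_dim]; omega),
          coeff_eq_zero_of_natDegree_lt (by rw [charpoly_natDegree_eq_dim]; omega)]
  exact Polynomial.ext fun j => (key K j (Nat.le_add_left K j)).2

theorem trace_toMatrix_pow {V : Type*} [AddCommGroup V] [Module ℂ V] {ι : Type*} [Fintype ι]
    [DecidableEq ι] (c : Module.Basis ι ℂ V) (a : Module.End ℂ V) (r : ℕ) :
    (LinearMap.toMatrix c c a ^ r).trace = LinearMap.trace ℂ V (a ^ r) := by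
  rw [LinearMap.trace_eq_matrix_trace ℂ c, LinearMap.toMatrix_pow]

variable {U W : Type*} [AddCommGroup U] [Module ℂ U] [FiniteDimensional ℂ U] [AddCommGroup W]
  [Module ℂ W] [FiniteDimensional ℂ W]

/-- The same for linear maps. -/
theorem linearMap_charpoly_eq {f : Module.End ℂ U} {g : Module.End ℂ W}
    (h : ∀ r : ℕ, LinearMap.trace ℂ U (f ^ r) = LinearMap.trace ℂ W (g ^ r)) :
    f.charpoly = g.charpoly := by
  have b := Module.finBasis ℂ U
  have b' := Module.finBasis ℂ W
  rw [← LinearMap.charpoly_toMatrix f b, ← LinearMap.charpoly_toMatrix g b']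
  refine charpoly_eq_of_trace_pow ?_ fun r => ?_
  · have h0 := h 0
    rw [pow_zero, pow_zero, LinearMap.trace_one, LinearMap.trace_one] at h0
    simpa using h0
  · rw [trace_toMatrix_pow, trace_toMatrix_pow]
    exact h r

end FA.QuaternionJLSystems

end
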