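import Mathlib.Algebra.Algebra.Basic
import Mathlib.Algebra.Module.Submodule.Basic
import Mathlib.Data.Nat.Factorization.Induction
import Mathlib.Data.PNat.Basic
import Mathlib.LinearAlgebra.Finsupp.LinearCombination
import Mathlib.Tactic

/-!
# Families with the multiplication of Hecke operators

In any algebra, elements indexed by the integers prime to `6` with the multiplication table of the
Hecke operators span a space closed under products, so it contains every power of every
combination of them.
-/

set_option autoImplicit false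
set_option linter.unusedSectionVars false
set_option linter.style.haveILetI false

namespace FA.QuaternionJLSystems

variable {A : Type*} [Ring A] [Algebra ℂ A]

/-- The multiplication table of the Hecke operators of weight `w + 1` prime to `6`. -/
structure HeckeTable (T : ℕ+ → A) (w : ℕ) : Prop where
  one : T 1 = 1
  mul : ∀ a b : ℕ+, (a : ℕ).Coprime 6 → (b : ℕ).Coprime 6 → (a : ℕ).Coprime b →
    T a * T b = T (a * b)
  prime_pow : ∀ p : ℕ+, (p : ℕ).Prime → (p : ℕ).Coprime 6 → ∀ r : ℕ,
    T p * T (p ^ (r + 1)) = T (p ^ (r + 2)) + ((p : ℕ) : ℂ) ^ w • T (p ^ r)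

/-- The span of the elements prime to `6`. -/
def tableSpan (T : ℕ+ → A) : Submodule ℂ A :=
  Submodule.span ℂ (T '' {n : ℕ+ | (n : ℕ).Coprime 6})

namespace HeckeTable

variable {T : ℕ+ → A} {w : ℕ} (h : HeckeTable T w)

include h in
theorem mul_powerSpan {p : ℕ+} (hp : (p : ℕ).Prime) (hp6 : (p : ℕ).Coprime 6) (i : ℕ) :
    ∀ X ∈ Submodule.span ℂ (Set.range fun l => T (p ^ l)),
      T (p ^ i) * X ∈ Submodule.span ℂ (Set.range fun l => T (p ^ l)) := by
  set P := Submodule.span ℂ (Set.range fun l => T (p ^ l))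
  have hm : ∀ l, T (p ^ l) ∈ P := fun l => Submodule.subset_span ⟨l, rfl⟩
  induction i using Nat.strong_induction_on with
  | _ i ih =>
    match i with
    | 0 =>
      intro X hX
      rwa [pow_zero, h.one, one_mul]
    | 1 =>
      intro X hX
      rw [pow_one]
      induction hX using Submodule.span_induction with
      | mem X hX =>
        obtain ⟨l, rfl⟩ := hX
        match l with
        | 0 =>
          simp only [pow_zero, h.one, mul_one]
          simpa using hm 1
        | l + 1 =>
          simp only [h.prime_pow p hp hp6 l]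
          exact add_mem (hm _) (P.smul_mem _ (hm l))
      | zero => rw [mul_zero]; exact zero_mem _
      | add X Y _ _ hX hY => rw [mul_add]; exact add_mem hX hY
      | smul z X _ hX => rw [mul_smul_comm]; exact P.smul_mem _ hX
    | r + 2 =>
      intro X hX
      rw [show T (p ^ (r + 2)) = T p * T (p ^ (r + 1)) - ((p : ℕ) : ℂ) ^ w • T (p ^ r) by
        rw [h.prime_pow p hp hp6 r, add_sub_cancel_right], sub_mul, mul_assoc, smul_mul_assoc]
      exact sub_mem (by simpa using ih 1 (by omega) _ (ih (r + 1) (by omega) X hX))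
        (P.smul_mem _ (ih r (by omega) X hX))

include h in
theorem mul_mem (a : ℕ+) (ha : (a : ℕ).Coprime 6) :
    ∀ X ∈ tableSpan T, T a * X ∈ tableSpan T := by
  suffices H : ∀ n : ℕ, ∀ hn : 0 < n, n.Coprime 6 → ∀ X ∈ tableSpan T,
      T ⟨n, hn⟩ * X ∈ tableSpan T from H a a.pos ha
  intro n
  induction n using Nat.recOnPrimeCoprime with
  | zero => intro hn; exact absurd hn (lt_irrefl 0)
  | prime_pow p i hp =>
    intro hn h6 X hX
    rcases Nat.eq_zero_or_pos i with rfl | hi
    · have e : T ⟨p ^ 0, hn⟩ = T (1 : ℕ+) := congrArg T (PNat.eq (pow_zero p))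
      rw [e, h.one, one_mul]
      exact hX
    have hp6 : p.Coprime 6 := (Nat.coprime_pow_left_iff hi p 6).1 h6
    set P : ℕ+ := ⟨p, hp.pos⟩ with hP
    induction hX using Submodule.span_induction with
    | mem X hX =>
      obtain ⟨b, hb6, rfl⟩ := hX
      obtain ⟨l, b', hb', hb⟩ := Nat.exists_eq_pow_mul_and_not_dvd b.ne_zero p hp.ne_one
      have hb'0 : 0 < b' := Nat.pos_of_ne_zero fun e => hb' (e ▸ dvd_zero p)
      set B : ℕ+ := ⟨b', hb'0⟩ with hB
      have hB6 : (B : ℕ).Coprime 6 := Nat.Coprime.coprime_dvd_left ⟨p ^ l, by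
        rw [mul_comm]; exact hb⟩ hb6
      have hP6 : ∀ q, ((P ^ q : ℕ+) : ℕ).Coprime 6 := fun q => by
        rw [PNat.pow_coe]
        exact Nat.Coprime.pow_left q hp6
      have hcop : ∀ q, ((P ^ q : ℕ+) : ℕ).Coprime B := fun q => by
        rw [PNat.pow_coe]
        exact Nat.Coprime.pow_left q (hp.coprime_iff_not_dvd.2 hb')
      rw [show (⟨p ^ i, hn⟩ : ℕ+) = P ^ i from
          PNat.eq (show p ^ i = _ from (PNat.pow_coe P i).symm),
        show b = P ^ l * B from PNat.eq (by rw [PNat.mul_coe, PNat.pow_coe]; exact hb),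
        ← h.mul _ _ (hP6 l) hB6 (hcop l), ← mul_assoc]
      have hmem := h.mul_powerSpan (p := P) hp hp6 i _ (Submodule.subset_span ⟨l, rfl⟩)
      generalize T (P ^ i) * T (P ^ l) = Y at hmem
      induction hmem using Submodule.span_induction with
      | mem Y hY =>
        obtain ⟨q, rfl⟩ := hY
        simp only [h.mul _ _ (hP6 q) hB6 (hcop q)]
        exact Submodule.subset_span ⟨_, by
          show ((P ^ q * B : ℕ+) : ℕ).Coprime 6
          rw [PNat.mul_coe]
          exact (hP6 q).mul_left hB6, rfl⟩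
      | zero => rw [zero_mul]; exact zero_mem _
      | add Y Z _ _ hY hZ => rw [add_mul]; exact add_mem hY hZ
      | smul z Y _ hY => rw [smul_mul_assoc]; exact Submodule.smul_mem _ _ hY
    | zero => rw [mul_zero]; exact zero_mem _
    | add X Y _ _ hX hY => rw [mul_add]; exact add_mem hX hY
    | smul z X _ hX => rw [mul_smul_comm]; exact Submodule.smul_mem _ _ hX
  | coprime x y hx hy hxy ihx ihy =>
    intro hn h6 X hX
    have hx6 : x.Coprime 6 := h6.coprime_dvd_left (dvd_mul_right x y)
    have hy6 : y.Coprime 6 := h6.coprime_dvd_left (dvd_mul_left y x)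
    have hx0 : 0 < x := by omega
    have hy0 : 0 < y := by omega
    set a : ℕ+ := ⟨x, hx0⟩
    set b : ℕ+ := ⟨y, hy0⟩
    rw [show (⟨x * y, hn⟩ : ℕ+) = a * b from rfl,
      ← h.mul a b hx6 hy6 hxy, mul_assoc]
    exact ihx hx0 hx6 _ (ihy hy0 hy6 X hX)

include h in
/-- **Powers of combinations.** -/
theorem pow_mem {c : ℕ+ →₀ ℂ} (hc : ∀ n ∈ c.support, (n : ℕ).Coprime 6) :
    ∀ r : ℕ, (Finsupp.linearCombination ℂ T c) ^ r ∈ tableSpan T
  | 0 => by
    rw [pow_zero, ← h.one]
    exact Submodule.subset_span ⟨1, by simp, rfl⟩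
  | r + 1 => by
    rw [pow_succ', Finsupp.linearCombination_apply, Finsupp.sum, Finset.sum_mul]
    refine Submodule.sum_mem _ fun n hn => ?_
    rw [smul_mul_assoc]
    refine Submodule.smul_mem _ _ (h.mul_mem n (hc n hn) _ ?_)
    have := pow_mem hc r
    rwa [Finsupp.linearCombination_apply, Finsupp.sum] at this

end HeckeTable

end FA.QuaternionJLSystems
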