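import Fermat.Agent.QuaternionJLSystems.Ops
import Fermat.Agent.QuaternionJLSystems.Ring
import Fermat.Agent.QuaternionJL.Transfer

/-!
# The Hecke operators of the two orders multiply

On Hurwitz's order the operators are the averages of the binary forms; on the Eichler order of
level `3` they are those of the binary forms on the four lines, by restriction to the first line.
-/

set_option autoImplicit false
set_option linter.unusedSectionVars false
set_option linter.style.haveILetI false

noncomputable section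

open Quaternion Matrix
open scoped Quaternion Classical Kronecker
open FA.HurwitzQ (Hz)
open FA.QuaternionJL

namespace FA.QuaternionJLSystems

variable {j : ℕ}

theorem average_hurwitz (j n : ℕ) :
    hurwitzData.average j n = Matrix.toLin' ((symRep j).avg n) := by
  rw [NormData.average, show (hurwitzData.elems 1).card = 24 from card_units_values.1, QRep.avg,
    map_smul, map_sum, Nat.cast_ofNat]
  rfl

theorem coe_hecke_hurwitz (j : ℕ) (n : ℕ+) (v : hurwitzData.forms j) :
    (hurwitzData.hecke j n v : Fin (j + 1) → ℂ) =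
      (symRep j).avg n *ᵥ (v : Fin (j + 1) → ℂ) := by
  show hurwitzData.average j n (v : Fin (j + 1) → ℂ) = _
  rw [average_hurwitz, Matrix.toLin'_apply]

theorem prime_ne {p : ℕ+} (h : (p : ℕ).Coprime 6) : (p : ℕ) ≠ 2 ∧ (p : ℕ) ≠ 3 := by
  constructor <;> intro e <;> rw [e] at h <;> exact absurd h (by decide)

/-- **The table on Hurwitz's order.** -/
theorem table_hurwitz (j : ℕ) : HeckeTable (hurwitzData.hecke j) (j + 1) where
  one := hurwitzData.hecke_one j
  mul a b ha hb hab := LinearMap.ext fun v => Subtype.ext (by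
    simp only [Module.End.mul_apply, coe_hecke_hurwitz, Matrix.mulVec_mulVec, PNat.mul_coe,
      (symRep j).avg_mul hab (not_three_dvd ha) (not_three_dvd hb)])
  prime_pow p hp h6 r := LinearMap.ext fun v => Subtype.ext (by
    simp only [Module.End.mul_apply, LinearMap.add_apply, LinearMap.smul_apply, Submodule.coe_add,
      Submodule.coe_smul, coe_hecke_hurwitz, Matrix.mulVec_mulVec, PNat.pow_coe,
      (symRep j).avg_prime_pow hp (prime_ne h6).1 (prime_ne h6).2 r, Matrix.add_mulVec,
      Matrix.smul_mulVec])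

/-- The component of a line. -/
def comp (i : Fin 4) : (Fin 4 × Fin (j + 1) → ℂ) →ₗ[ℂ] (Fin (j + 1) → ℂ) :=
  LinearMap.pi fun l => LinearMap.proj (i, l)

theorem comp_apply (i : Fin 4) (f : Fin 4 × Fin (j + 1) → ℂ) (l : Fin (j + 1)) :
    comp i f l = f (i, l) := rfl

theorem lineRep_mulVec (x : ℍ[ℚ]) (f : Fin 4 × Fin (j + 1) → ℂ) (i : Fin 4) :
    comp i ((lineRep j).rho x *ᵥ f) =
      ∑ m : Fin 4, if Edge x i m then act j x (comp m f) else 0 := by
  ext l
  rw [Finset.sum_apply]
  show ∑ q : Fin 4 × Fin (j + 1), (permMat x ⊗ₖ symMat j (toMat x)) (i, l) q * f q = _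
  rw [Fintype.sum_prod_type]
  refine Finset.sum_congr rfl fun m _ => ?_
  by_cases h : Edge x i m
  · rw [if_pos h, act, Matrix.toLin'_apply]
    simp [permMat, h, Matrix.mulVec, dotProduct, comp_apply]
  · rw [if_neg h]
    simp [permMat, h]

theorem edge_inv {u : ℍ[ℚ]} (hu : u ∈ normHz 1) {k i : Fin 4} (h : Edge u k i) :
    Edge u⁻¹ i k := by
  have hn : normSq ((lineGen k)⁻¹ * u * lineGen i) = 1 := by
    rw [map_mul, map_mul, map_inv₀, normSq_lineGen, normSq_lineGen, (mem_normHz.1 hu).2]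
    norm_num
  have := (FA.HurwitzQ.unit_inv (e := (lineGen k)⁻¹ * u * lineGen i) ⟨h, hn⟩).1.1
  rwa [_root_.mul_inv_rev, _root_.mul_inv_rev, inv_inv, ← mul_assoc] at this

theorem inv_mem_units {u : ℍ[ℚ]} (hu : u ∈ normHz 1) : u⁻¹ ∈ normHz 1 :=
  unit_mem.1 (FA.HurwitzQ.unit_inv (unit_mem.2 hu)).1

theorem edge_row_unique {u : ℍ[ℚ]} (hu : u ∈ normHz 1) {k i m : Fin 4} (hi : Edge u k i)
    (hm : Edge u k m) : m = i := by
  have h := (edge_inv hu hi).mul hm
  rw [inv_mul_cancel₀ (normHz_ne_zero one_ne_zero hu)] at h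
  exact ((edge_one i m).1 h).symm

theorem comp_of_edge {f : Fin 4 × Fin (j + 1) → ℂ} (hf : f ∈ (lineRep j).forms) {u : ℍ[ℚ]}
    (hu : u ∈ normHz 1) {k i : Fin 4} (h : Edge u k i) : comp k f = act j u (comp i f) := by
  conv_lhs => rw [← ((lineRep j).mem_forms).1 hf u hu]
  rw [lineRep_mulVec, Finset.sum_eq_single i (fun m _ hm =>
    if_neg fun hm' => hm (edge_row_unique hu h hm')) (by simp), if_pos h]

theorem exists_unit_to (i : Fin 4) : ∃ u ∈ normHz 1, Edge u i 0 := by
  have key : ∀ i : Fin 4, ∃ p ∈ normPts 1, edgeVec i 0 (quad3 p) = 0 := by decide +kernel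
  obtain ⟨p, hp, he⟩ := key i
  exact ⟨toQ p, Finset.mem_map_of_mem _ hp,
    (edge_iff (parity_of_norm (mem_normPts.1 hp)) i 0).2 he⟩

theorem edge_zero_iff {x : ℍ[ℚ]} (hx : x ∈ Hz) : Edge x 0 0 ↔ x ∈ eichler3 := by
  rw [mem_eichler3, Edge, lineGen_zero, and_iff_right hx]

theorem comp_mem {f : Fin 4 × Fin (j + 1) → ℂ} (hf : f ∈ (lineRep j).forms) :
    comp 0 f ∈ eichlerData.forms j :=
  (eichlerData.mem_forms j).2 fun _ hu => (comp_of_edge hf (normE3_subset 1 hu)
    ((edge_zero_iff (mem_normHz.1 (normE3_subset 1 hu)).1).2 (mem_normE3.1 hu).1)).symm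

/-- Restriction to the first line. -/
def restrictLine (j : ℕ) : (lineRep j).forms →ₗ[ℂ] eichlerData.forms j :=
  LinearMap.codRestrict _ ((comp 0).comp (lineRep j).forms.subtype) fun f => comp_mem f.2

theorem restrictLine_injective (j : ℕ) : Function.Injective (restrictLine j) := fun f g h => by
  refine Subtype.ext (funext fun ⟨i, l⟩ => ?_)
  obtain ⟨u, hu, he⟩ := exists_unit_to i
  have h0 : comp 0 (f : Fin 4 × Fin (j + 1) → ℂ) = comp 0 (g : Fin 4 × Fin (j + 1) → ℂ) :=
    congrArg Subtype.val h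
  show comp i (f : Fin 4 × Fin (j + 1) → ℂ) l = comp i (g : Fin 4 × Fin (j + 1) → ℂ) l
  rw [comp_of_edge f.2 hu he, comp_of_edge g.2 hu he, h0]

theorem restrictLine_op (n : ℕ+) (h : (n : ℕ).Coprime 6) (f : (lineRep j).forms) :
    restrictLine j ((lineRep j).op n h f) = eichlerData.hecke j n (restrictLine j f) := by
  refine Subtype.ext ?_
  show comp 0 ((lineRep j).avg n *ᵥ (f : Fin 4 × Fin (j + 1) → ℂ)) =
    eichlerData.average j n (comp 0 (f : Fin 4 × Fin (j + 1) → ℂ))
  have hn3 := not_three_dvd h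
  have hline : ∀ m : Fin 4,
      ∑ x ∈ normHz n, (if Edge x 0 m then act j x (comp m (f : Fin 4 × Fin (j + 1) → ℂ)) else 0) =
        ∑ z ∈ normE3 n, act j z (comp 0 (f : Fin 4 × Fin (j + 1) → ℂ)) := fun m => by
    obtain ⟨u, hu, he⟩ := exists_unit_to m
    have hu0 := normHz_ne_zero one_ne_zero hu
    obtain ⟨huH, hu1⟩ := mem_normHz.1 hu
    obtain ⟨hvH, hv1⟩ := mem_normHz.1 (inv_mem_units hu)
    rw [comp_of_edge f.2 hu he, ← Finset.sum_filter]
    refine Finset.sum_nbij' (fun x => x * u) (fun z => z * u⁻¹) (fun x hx => ?_) (fun z hz => ?_)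
      (fun x _ => mul_inv_cancel_right₀ hu0 x) (fun z _ => inv_mul_cancel_right₀ hu0 z)
      fun x hx => ?_
    · obtain ⟨hxn, hxe⟩ := Finset.mem_filter.1 (Finset.mem_coe.1 hx)
      obtain ⟨hxH, hxn'⟩ := mem_normHz.1 hxn
      refine Finset.mem_coe.2 (mem_normE3.2 ⟨(edge_zero_iff (mul_mem hxH huH)).1 (hxe.mul he), ?_⟩)
      rw [map_mul, hxn', hu1, Nat.cast_one, mul_one]
    · obtain ⟨hzE, hzn⟩ := mem_normE3.1 (Finset.mem_coe.1 hz)
      have hzH := (mem_eichler3.1 hzE).1
      refine Finset.mem_coe.2 (Finset.mem_filter.2 ⟨mem_normHz.2 ⟨mul_mem hzH hvH, ?_⟩,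
        ((edge_zero_iff hzH).2 hzE).mul (edge_inv hu he)⟩)
      rw [map_mul, hzn, hv1, Nat.cast_one, mul_one]
    · rw [act_mul j hu0]
      rfl
  rw [QRep.avg, Matrix.smul_mulVec, Matrix.sum_mulVec, map_smul, map_sum,
    Finset.sum_congr rfl fun x _ => lineRep_mulVec x _ 0, Finset.sum_comm,
    Finset.sum_congr rfl fun m _ => hline m, Finset.sum_const, Finset.card_univ, Fintype.card_fin,
    NormData.average, show (eichlerData.elems 1).card = 6 from card_units_values.2,
    LinearMap.smul_apply, LinearMap.sum_apply, ← Nat.cast_smul_eq_nsmul ℂ, smul_smul]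
  congr 1
  norm_num

theorem finrank_lineRep (j : ℕ) :
    Module.finrank ℂ (lineRep j).forms = Module.finrank ℂ (eichlerData.forms j) := by
  have h1 : ((1 : ℕ+) : ℕ).Coprime 6 := by norm_num
  have e : LinearMap.trace ℂ (lineRep j).forms ((lineRep j).op 1 h1) =
      LinearMap.trace ℂ (eichlerData.forms j) (eichlerData.hecke j 1) := by
    rw [QRep.trace_op, trace_eichler, normHz, Finset.sum_map, normPts, Finset.sum_sigma,
      Finset.mul_sum, Finset.mul_sum]
    refine Finset.sum_congr rfl fun t ht => ?_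
    have hval : ∀ v ∈ FA.HurwitzQ.reps (4 * ((1 : ℕ) : ℤ) - t ^ 2).toNat,
        ((lineRep j).rho (toQ ⟨t, v⟩)).trace =
          (fixCount v : ℂ) * (QuaternionClasses.lucas t ((1 : ℕ) : ℤ) j : ℂ) := fun v hv => by
      have hp : (⟨t, v⟩ : (_ : ℤ) × (ℤ × ℤ × ℤ)) ∈ normPts 1 := Finset.mem_sigma.2 ⟨ht, hv⟩
      have hH : toQ ⟨t, v⟩ ∈ normHz 1 := Finset.mem_map_of_mem _ hp
      show (permMat (toQ ⟨t, v⟩) ⊗ₖ symMat j (toMat (toQ ⟨t, v⟩))).trace = _
      rw [Matrix.trace_kronecker, trace_permMat (mem_normHz.1 hH).1,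
        trace_symMat j (t := t) (n := 1) ?_ ?_ one_ne_zero, Nat.cast_one]
      · rw [trace_toMat, re_toQ]
        push_cast
        rfl
      · rw [det_toMat, (mem_normHz.1 hH).2]
        push_cast
        rfl
    have hfix := congrArg (fun z : ℤ => (z : ℂ))
      (fixSum_eq_line (4 * ((1 : ℕ) : ℤ) - t ^ 2).toNat)
    simp only [fixSum, Finset.sum_sub_distrib, Finset.sum_const, nsmul_eq_mul] at hfix
    push_cast at hfix
    simp only [Function.Embedding.coeFn_mk, PNat.one_coe]
    rw [Finset.sum_congr rfl hval, ← Finset.sum_mul]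
    push_cast
    linear_combination ((24 : ℂ)⁻¹ * (QuaternionClasses.lucas t 1 j : ℂ)) * hfix
  rw [QRep.op_one, NormData.hecke_one, LinearMap.trace_one, LinearMap.trace_one] at e
  exact_mod_cast e

/-- The forms of the Eichler order as forms on the lines. -/
def lineEquiv (j : ℕ) : (lineRep j).forms ≃ₗ[ℂ] eichlerData.forms j :=
  LinearEquiv.ofBijective (restrictLine j) ⟨restrictLine_injective j,
    (LinearMap.injective_iff_surjective_of_finrank_eq_finrank (finrank_lineRep j)).1
      (restrictLine_injective j)⟩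

theorem hecke_eichler_lineEquiv (n : ℕ+) (h : (n : ℕ).Coprime 6) (f : (lineRep j).forms) :
    eichlerData.hecke j n (lineEquiv j f) = lineEquiv j ((lineRep j).op n h f) :=
  (restrictLine_op n h f).symm

/-- **The table on the Eichler order.** -/
theorem table_eichler (j : ℕ) : HeckeTable (eichlerData.hecke j) (j + 1) where
  one := eichlerData.hecke_one j
  mul a b ha hb hab := LinearMap.ext fun v => by
    have hab6 : ((a * b : ℕ+) : ℕ).Coprime 6 := by
      rw [PNat.mul_coe]
      exact ha.mul_left hb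
    obtain ⟨f, rfl⟩ := (lineEquiv j).surjective v
    rw [Module.End.mul_apply, hecke_eichler_lineEquiv b hb, hecke_eichler_lineEquiv a ha,
      hecke_eichler_lineEquiv (a * b) hab6, ← Module.End.mul_apply,
      (lineRep j).op_mul ha hb hab hab6]
  prime_pow p hp h6 r := LinearMap.ext fun v => by
    have hq : ∀ i, ((p ^ i : ℕ+) : ℕ).Coprime 6 := fun i => by
      rw [PNat.pow_coe]
      exact Nat.Coprime.pow_left i h6
    obtain ⟨f, rfl⟩ := (lineEquiv j).surjective v
    rw [Module.End.mul_apply, hecke_eichler_lineEquiv _ (hq _), hecke_eichler_lineEquiv p h6,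
      LinearMap.add_apply, LinearMap.smul_apply, hecke_eichler_lineEquiv _ (hq _),
      hecke_eichler_lineEquiv _ (hq _), ← map_smul, ← map_add, ← Module.End.mul_apply,
      (lineRep j).op_prime_pow hp h6 r (hq _) (hq _) (hq _)]
    rfl

end FA.QuaternionJLSystems

end
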