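import Fermat.Agent.QuaternionJLSystems.Reps

/-!
# The Hecke operators of a representation

The averages of a representation over the elements of each norm prime to `6` multiply as the
Hecke operators of weight `j + 2` do, and act on the invariants of the units with the same traces.
-/

set_option autoImplicit false
set_option linter.unusedSectionVars false
set_option linter.style.haveILetI false

noncomputable section

open Quaternion Matrix
open scoped Quaternion Classical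
open FA.HurwitzQ (Hz)
open FA.QuaternionJL

namespace FA.QuaternionJLSystems

theorem ne_zero_of_not_dvd {n : ℕ} (h : ¬3 ∣ n) : n ≠ 0 := fun e => h (e ▸ dvd_zero 3)

theorem not_three_dvd {n : ℕ+} (h : (n : ℕ).Coprime 6) : ¬3 ∣ (n : ℕ) := fun h3 =>
  absurd (Nat.eq_one_of_dvd_coprimes h h3 (by norm_num)) (by norm_num)

variable {ι : Type} [Fintype ι] [DecidableEq ι] {j : ℕ}

namespace QRep

variable (ρ : QRep ι j)

/-- The average over the elements of norm `n`. -/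
def avg (n : ℕ) : Matrix ι ι ℂ := (24 : ℂ)⁻¹ • ∑ x ∈ normHz n, ρ.rho x

theorem avg_comp {a b : ℕ} (ha : ¬3 ∣ a) (hb : ¬3 ∣ b) :
    ρ.avg a * ρ.avg b =
      ((24 : ℂ)⁻¹ * (24 : ℂ)⁻¹) •
        ∑ x ∈ normHz (a * b), (leftDivisors a x).card • ρ.rho x := by
  rw [avg, avg, smul_mul_smul_comm,
    ← sum_normHz_mul (m := a) (n := b) (ne_zero_of_not_dvd ha) ρ.rho, Finset.sum_mul_sum]
  exact congrArg _ (Finset.sum_congr rfl fun y hy => Finset.sum_congr rfl fun z hz =>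
    (ρ.rho_mul y z (good_of_mem ha hy) (good_of_mem hb hz)).symm)

/-- **Multiplicativity.** -/
theorem avg_mul {a b : ℕ} (hab : a.Coprime b) (ha : ¬3 ∣ a) (hb : ¬3 ∣ b) :
    ρ.avg a * ρ.avg b = ρ.avg (a * b) := by
  rw [ρ.avg_comp ha hb, Finset.sum_congr rfl fun x hx => by
    rw [card_leftDivisors_coprime (ne_zero_of_not_dvd ha) hab hx], ← Finset.smul_sum,
    ← Nat.cast_smul_eq_nsmul ℂ, smul_smul, avg]
  norm_num

/-- **The recursion at a prime.** -/
theorem avg_prime_pow {p : ℕ} (hp : p.Prime) (h2 : p ≠ 2) (h3 : p ≠ 3) (r : ℕ) :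
    ρ.avg p * ρ.avg (p ^ (r + 1)) =
      ρ.avg (p ^ (r + 2)) + (p : ℂ) ^ (j + 1) • ρ.avg (p ^ r) := by
  have hp3 : ¬3 ∣ p := fun h => h3 ((Nat.prime_dvd_prime_iff_eq Nat.prime_three hp).1 h).symm
  have hpow : ∀ i, ¬3 ∣ p ^ i := fun i h => hp3 (Nat.prime_three.dvd_of_dvd_pow h)
  have hp0 : (p : ℍ[ℚ]) ≠ 0 := fun h => hp.ne_zero (by
    simpa using congrArg (fun q : ℍ[ℚ] => q.re) h)
  rw [ρ.avg_comp hp3 (hpow _), ← pow_succ']
  set S := (normHz (p ^ (r + 2))).filter fun x => ∃ h ∈ Hz, x = (p : ℍ[ℚ]) * h with hS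
  have hSeq : S = (normHz (p ^ r)).map ⟨((p : ℍ[ℚ]) * ·), mul_right_injective₀ hp0⟩ := by
    ext x
    simp only [hS, Finset.mem_filter, Finset.mem_map, Function.Embedding.coeFn_mk, mem_normHz]
    constructor
    · rintro ⟨⟨-, hn⟩, h, hh, rfl⟩
      refine ⟨h, ⟨hh, ?_⟩, rfl⟩
      rw [map_mul, normSq_natCast'] at hn
      refine mul_left_cancel₀ (pow_ne_zero 2 (Nat.cast_ne_zero.2 hp.ne_zero) : (p : ℚ) ^ 2 ≠ 0) ?_
      push_cast at hn ⊢
      linear_combination hn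
    · rintro ⟨h, ⟨hh, hn⟩, rfl⟩
      refine ⟨⟨mul_mem (natCast_mem_Hz p) hh, ?_⟩, h, hh, rfl⟩
      rw [map_mul, normSq_natCast', hn]
      push_cast
      ring
  have hcard : ∀ x ∈ normHz (p ^ (r + 2)), (leftDivisors p x).card • ρ.rho x =
      24 • ρ.rho x + if x ∈ S then (24 * p) • ρ.rho x else 0 := fun x hx => by
    by_cases h : x ∈ S
    · obtain ⟨h', hh', rfl⟩ := (Finset.mem_filter.1 h).2
      rw [if_pos h, leftDivisors_mul hp.ne_zero hh', card_normHz_prime hp h2, ← add_nsmul]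
      congr 1
      ring
    · rw [if_neg h, add_zero, card_leftDivisors_prime hp hx fun h' hh' e =>
        h (Finset.mem_filter.2 ⟨hx, h', hh', e⟩)]
  rw [Finset.sum_congr rfl hcard, Finset.sum_add_distrib, ← Finset.sum_filter,
    Finset.filter_mem_eq_inter, Finset.inter_eq_right.2 (Finset.filter_subset _ _),
    ← hS, hSeq, Finset.sum_map]
  simp only [Function.Embedding.coeFn_mk]
  have hsum : ∑ h ∈ normHz (p ^ r), (24 * p) • ρ.rho ((p : ℍ[ℚ]) * h) =
      (24 * (p : ℂ) ^ (j + 1)) • ∑ h ∈ normHz (p ^ r), ρ.rho h := by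
    rw [Finset.smul_sum]
    refine Finset.sum_congr rfl fun h hh => ?_
    rw [ρ.rho_natMul p h hp3 (good_of_mem (hpow r) hh), ← Nat.cast_smul_eq_nsmul ℂ, smul_smul]
    congr 1
    push_cast
    ring
  rw [hsum, smul_add, avg, avg, ← Finset.smul_sum, ← Nat.cast_smul_eq_nsmul ℂ, smul_smul,
    smul_smul, smul_smul]
  congr 2
  · norm_num
  · ring

theorem units_good {u : ℍ[ℚ]} (hu : u ∈ normHz 1) : Good u := good_of_mem (by norm_num) hu

theorem rho_mul_avg {n : ℕ} (hn : ¬3 ∣ n) {u : ℍ[ℚ]} (hu : u ∈ normHz 1) :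
    ρ.rho u * ρ.avg n = ρ.avg n := by
  have h0 : n ≠ 0 := fun h => hn (h ▸ dvd_zero 3)
  rw [avg, mul_smul_comm, Finset.mul_sum]
  refine congrArg _ ?_
  conv_rhs => rw [← hurwitzImage u hu n, Finset.sum_image
    (mul_right_injective₀ (normHz_ne_zero one_ne_zero hu)).injOn]
  exact Finset.sum_congr rfl fun x hx => (ρ.rho_mul u x (units_good hu) (good_of_mem hn hx)).symm
where
  hurwitzImage (u : ℍ[ℚ]) (hu : u ∈ normHz 1) (n : ℕ) :
      (normHz n).image (u * ·) = normHz n :=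
    NormData.unit_mul_image ⟨Hz, normHz, fun _ _ => mem_normHz⟩ hu n

/-- The invariants of the units. -/
def forms : Submodule ℂ (ι → ℂ) :=
  ⨅ u ∈ normHz 1, LinearMap.eqLocus (Matrix.toLin' (ρ.rho u)) LinearMap.id

theorem mem_forms {v : ι → ℂ} : v ∈ ρ.forms ↔ ∀ u ∈ normHz 1, ρ.rho u *ᵥ v = v := by
  simp [forms]

theorem avg_mem {n : ℕ} (hn : ¬3 ∣ n) (v : ι → ℂ) : ρ.avg n *ᵥ v ∈ ρ.forms :=
  (ρ.mem_forms).2 fun u hu => by rw [Matrix.mulVec_mulVec, ρ.rho_mul_avg hn hu]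

/-- The Hecke operator of an index prime to `6`. -/
def op (n : ℕ+) (h : (n : ℕ).Coprime 6) : Module.End ℂ ρ.forms :=
  LinearMap.restrict (Matrix.toLin' (ρ.avg n)) fun v _ => ρ.avg_mem (not_three_dvd h) v

theorem coe_op (n : ℕ+) (h : (n : ℕ).Coprime 6) (v : ρ.forms) :
    (ρ.op n h v : ι → ℂ) = ρ.avg n *ᵥ (v : ι → ℂ) := rfl

theorem op_one (h : ((1 : ℕ+) : ℕ).Coprime 6) : ρ.op 1 h = 1 := by
  refine LinearMap.ext fun v => Subtype.ext ?_
  rw [coe_op, PNat.one_coe, avg, Matrix.smul_mulVec, Matrix.sum_mulVec,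
    Finset.sum_congr rfl fun u hu => (ρ.mem_forms).1 v.2 u hu, Finset.sum_const,
    card_units_values.1, ← Nat.cast_smul_eq_nsmul ℂ, smul_smul]
  norm_num

theorem op_mul {a b : ℕ+} (ha : (a : ℕ).Coprime 6) (hb : (b : ℕ).Coprime 6)
    (hab : (a : ℕ).Coprime b) (h : ((a * b : ℕ+) : ℕ).Coprime 6) :
    ρ.op a ha * ρ.op b hb = ρ.op (a * b) h := by
  refine LinearMap.ext fun v => Subtype.ext ?_
  rw [Module.End.mul_apply, coe_op, coe_op, coe_op, Matrix.mulVec_mulVec,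
    ρ.avg_mul hab (not_three_dvd ha) (not_three_dvd hb), PNat.mul_coe]

theorem op_prime_pow {p : ℕ+} (hp : (p : ℕ).Prime) (hp6 : (p : ℕ).Coprime 6) (r : ℕ)
    (h1 : ((p ^ (r + 1) : ℕ+) : ℕ).Coprime 6) (h2 : ((p ^ (r + 2) : ℕ+) : ℕ).Coprime 6)
    (h0 : ((p ^ r : ℕ+) : ℕ).Coprime 6) :
    ρ.op p hp6 * ρ.op (p ^ (r + 1)) h1 =
      ρ.op (p ^ (r + 2)) h2 + ((p : ℕ) : ℂ) ^ (j + 1) • ρ.op (p ^ r) h0 := by
  refine LinearMap.ext fun v => Subtype.ext ?_
  simp only [Module.End.mul_apply, LinearMap.add_apply, LinearMap.smul_apply, Submodule.coe_add,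
    Submodule.coe_smul, coe_op, PNat.pow_coe, Matrix.mulVec_mulVec]
  rw [ρ.avg_prime_pow hp ?_ ?_ r, Matrix.add_mulVec, Matrix.smul_mulVec]
  · intro e
    rw [e] at hp6
    exact absurd hp6 (by decide)
  · intro e
    rw [e] at hp6
    exact absurd hp6 (by decide)

theorem trace_op (n : ℕ+) (h : (n : ℕ).Coprime 6) :
    LinearMap.trace ℂ ρ.forms (ρ.op n h) = (24 : ℂ)⁻¹ * ∑ x ∈ normHz n, (ρ.rho x).trace := by
  rw [op, LinearMap.trace_restrict_eq_of_forall_mem _ _ (fun v => ρ.avg_mem (not_three_dvd h) v),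
    Matrix.trace_toLin'_eq, avg, Matrix.trace_smul, Matrix.trace_sum, smul_eq_mul]

end QRep

end FA.QuaternionJLSystems

end
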