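import Fermat.Agent.QuaternionJLSystems.Division
import Fermat.Agent.QuaternionJL.Invariants
import Mathlib.LinearAlgebra.Matrix.Kronecker

/-!
# The two representations

Hurwitz quaternions of norm prime to `3` permute the four lines of `𝔽₃²`, given by the right
ideals of the quaternions `1 ± i ± j`; with the binary forms of degree `j` this gives the two
representations whose averages are the Hecke operators of levels `1` and `3`.
-/

set_option autoImplicit false
set_option linter.unusedSectionVars false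
set_option linter.style.haveILetI false

noncomputable section

open Quaternion Matrix
open scoped Quaternion Classical Kronecker
open FA.HurwitzQ (Hz lip)
open FA.QuaternionJL

namespace FA.QuaternionJLSystems

/-- The quaternion `1 ± i ± j` of a line. -/
def lineGen (j : Fin 4) : ℍ[ℚ] := lip 1 (sgn j).1 (sgn j).2 0

theorem lineGen_zero : lineGen 0 = alpha := rfl

theorem normSq_lineGen (j : Fin 4) : normSq (lineGen j) = 3 := by
  rw [normSq_def']
  fin_cases j <;> norm_num [lineGen, lip, sgn]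

theorem lineGen_ne_zero (j : Fin 4) : lineGen j ≠ 0 := fun h => by
  have := normSq_lineGen j
  rw [h, map_zero] at this
  norm_num at this

/-- Whether a quaternion carries the line `j` to the line `k`. -/
def Edge (x : ℍ[ℚ]) (k j : Fin 4) : Prop := (lineGen k)⁻¹ * x * lineGen j ∈ Hz

variable {R : Type*} [CommRing R]

/-- Twice the coordinates of `conj (lineGen k) * x * lineGen j`. -/
def edgeVec (k j : Fin 4) (p : R × R × R × R) : R × R × R × R :=
  let e : R := (sgn j).1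
  let d : R := (sgn j).2
  let e' : R := (sgn k).1
  let d' : R := (sgn k).2
  let t := p.1 - e * p.2.1 - d * p.2.2.1
  let x := p.2.1 + e * p.1 - d * p.2.2.2
  let y := p.2.2.1 + d * p.1 + e * p.2.2.2
  let z := p.2.2.2 + d * p.2.1 - e * p.2.2.1
  (t + e' * x + d' * y, x - e' * t - d' * z, y - d' * t + e' * z, z - e' * y + d' * x)

/-- The coordinates modulo `3`. -/
def quad3 (p : (_ : ℤ) × (ℤ × ℤ × ℤ)) : ZMod 3 × ZMod 3 × ZMod 3 × ZMod 3 :=
  (p.1, p.2.1, p.2.2.1, p.2.2.2)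

theorem edge_iff {p : (_ : ℤ) × (ℤ × ℤ × ℤ)} (hp : toQ p ∈ Hz) (k j : Fin 4) :
    Edge (toQ p) k j ↔ edgeVec k j (quad3 p) = 0 := by
  obtain ⟨t, x, y, z⟩ := p
  obtain ⟨p1, p2, p3⟩ := (toQ_mem_iff _).1 hp
  simp only at p1 p2 p3
  set V : ℤ × ℤ × ℤ × ℤ := edgeVec k j (t, x, y, z) with hV
  have hred : edgeVec k j (quad3 ⟨t, x, y, z⟩) =
      ((V.1 : ZMod 3), (V.2.1 : ZMod 3), (V.2.2.1 : ZMod 3), (V.2.2.2 : ZMod 3)) := by
    simp [hV, edgeVec, quad3]
  have hinv : (lineGen k)⁻¹ = (3 : ℚ)⁻¹ • star (lineGen k) := by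
    rw [Quaternion.inv_def, normSq_lineGen]
  have hval : (lineGen k)⁻¹ * toQ ⟨t, x, y, z⟩ * lineGen j =
      ⟨(V.1 : ℚ) / 6, (V.2.1 : ℚ) / 6, (V.2.2.1 : ℚ) / 6, (V.2.2.2 : ℚ) / 6⟩ := by
    rw [hinv, smul_mul_assoc, smul_mul_assoc]
    ext <;> simp [lineGen, lip, toQ, hV, edgeVec] <;> ring
  rw [Edge, hval, hred]
  simp only [Prod.ext_iff, Prod.fst_zero, Prod.snd_zero, ZMod.intCast_zmod_eq_zero_iff_dvd]
  constructor
  · intro h
    obtain ⟨⟨a, b, c, d⟩, hu⟩ := exists_toQ h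
    simp only [toQ, Quaternion.ext_iff] at hu
    obtain ⟨h0, h1, h2, h3⟩ := hu
    refine ⟨⟨a, ?_⟩, ⟨b, ?_⟩, ⟨c, ?_⟩, ⟨d, ?_⟩⟩
    all_goals
      rw [← Int.cast_inj (α := ℚ)]
      push_cast
      linarith
  · rintro ⟨⟨a, ha⟩, ⟨b, hb⟩, ⟨c, hc⟩, ⟨d, hd⟩⟩
    have e : toQ ⟨a, b, c, d⟩ ∈ Hz := by
      rw [toQ_mem_iff]
      simp only
      fin_cases k <;> fin_cases j <;> simp [hV, edgeVec, sgn] at ha hb hc hd <;> omega
    rw [ha, hb, hc, hd]
    convert e using 1
    ext <;> simp [toQ] <;> ring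

theorem edge_count : ∀ u : ZMod 3 × ZMod 3 × ZMod 3 × ZMod 3,
    u.1 ^ 2 + u.2.1 ^ 2 + u.2.2.1 ^ 2 + u.2.2.2 ^ 2 ≠ 0 → ∀ j,
      (Finset.univ.filter fun k : Fin 4 => edgeVec k j u = 0).card = 1 := by
  decide +kernel

/-- An element of the order of norm prime to `3`. -/
def Good (x : ℍ[ℚ]) : Prop := x ∈ Hz ∧ ∃ n : ℕ, ¬3 ∣ n ∧ normSq x = (n : ℚ)

theorem Good.mul {x y : ℍ[ℚ]} (hx : Good x) (hy : Good y) : Good (x * y) := by
  obtain ⟨hxH, a, ha, hxa⟩ := hx
  obtain ⟨hyH, b, hb, hyb⟩ := hy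
  refine ⟨mul_mem hxH hyH, a * b, ?_, by rw [map_mul, hxa, hyb, Nat.cast_mul]⟩
  rw [Nat.prime_three.dvd_mul]
  tauto

theorem good_of_mem {n : ℕ} (hn : ¬3 ∣ n) {x : ℍ[ℚ]} (hx : x ∈ normHz n) : Good x :=
  ⟨(mem_normHz.1 hx).1, n, hn, (mem_normHz.1 hx).2⟩

theorem Good.ne_zero {x : ℍ[ℚ]} (hx : Good x) : x ≠ 0 := fun h => by
  obtain ⟨-, n, hn, hxn⟩ := hx
  rw [h, map_zero] at hxn
  exact hn (by rw [show n = 0 by exact_mod_cast hxn.symm]; exact dvd_zero 3)

theorem existsUnique_edge {x : ℍ[ℚ]} (hx : Good x) (j : Fin 4) : ∃! k, Edge x k j := by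
  obtain ⟨hxH, n, hn, hxn⟩ := hx
  obtain ⟨p, rfl⟩ := exists_toQ hxH
  have h4 : p.1 ^ 2 + sqNorm p.2 = 4 * (n : ℤ) := by
    rw [normSq_toQ] at hxn
    rw [← Int.cast_inj (α := ℚ)]
    push_cast at hxn ⊢
    linarith
  have hu : (quad3 p).1 ^ 2 + (quad3 p).2.1 ^ 2 + (quad3 p).2.2.1 ^ 2 +
      (quad3 p).2.2.2 ^ 2 ≠ 0 := fun h => hn (by
    have e : (((4 * n : ℕ) : ℤ) : ZMod 3) = 0 := by
      rw [← h]
      push_cast
      have := congrArg (fun z : ℤ => (z : ZMod 3)) h4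
      simp only [sqNorm] at this
      push_cast at this
      rw [← this, quad3]
      ring
    rw [ZMod.intCast_zmod_eq_zero_iff_dvd, Int.natCast_dvd_natCast] at e
    omega)
  obtain ⟨k, hk⟩ := Finset.card_eq_one.1 (edge_count _ hu j)
  simp only [Finset.ext_iff, Finset.mem_filter, Finset.mem_univ, true_and,
    Finset.mem_singleton] at hk
  exact ⟨k, (edge_iff hxH k j).2 ((hk k).2 rfl), fun l hl => (hk l).1 ((edge_iff hxH l j).1 hl)⟩

theorem Edge.mul {x y : ℍ[ℚ]} {k l j : Fin 4} (h : Edge x k l) (h' : Edge y l j) :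
    Edge (x * y) k j := by
  have := mul_mem h h'
  simp only [Edge, mul_assoc, mul_inv_cancel_left₀ (lineGen_ne_zero l)] at this ⊢
  exact this

theorem edge_one (k j : Fin 4) : Edge 1 k j ↔ k = j := by
  have h1 : Good 1 := ⟨one_mem _, 1, by norm_num, by simp⟩
  have hj : Edge 1 j j := by
    simp only [Edge, mul_one, inv_mul_cancel₀ (lineGen_ne_zero j)]
    exact one_mem _
  exact ⟨fun h => (existsUnique_edge h1 j).unique h hj, fun h => h ▸ hj⟩

/-- The permutation of the lines as a matrix. -/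
def permMat (x : ℍ[ℚ]) : Matrix (Fin 4) (Fin 4) ℂ :=
  Matrix.of fun k j => if Edge x k j then 1 else 0

theorem permMat_mul {x y : ℍ[ℚ]} (hx : Good x) (hy : Good y) :
    permMat (x * y) = permMat x * permMat y := by
  ext k j
  obtain ⟨l, hl, hlu⟩ := existsUnique_edge hy j
  rw [Matrix.mul_apply, Finset.sum_eq_single l (fun i _ hi => by
    simp [permMat, show ¬Edge y i j from fun h => hi (hlu i h)]) (by simp)]
  obtain ⟨i, hi, hiu⟩ := existsUnique_edge hx l
  have hxy : Edge (x * y) k j ↔ Edge x k l := by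
    refine ⟨fun h => ?_, fun h => h.mul hl⟩
    rwa [(existsUnique_edge (hx.mul hy) j).unique h (hi.mul hl)]
  simp [permMat, hl, hxy]

theorem permMat_one : permMat 1 = 1 := by
  ext k j
  simp [permMat, edge_one, Matrix.one_apply]

theorem permMat_natMul {c : ℕ} (hc : ¬3 ∣ c) {x : ℍ[ℚ]} (hx : Good x) :
    permMat ((c : ℍ[ℚ]) * x) = permMat x := by
  have hc' : Good (c : ℍ[ℚ]) := ⟨natCast_mem_Hz c, c * c,
    by rw [Nat.prime_three.dvd_mul]; tauto, normSq_natCast' c⟩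
  ext k j
  obtain ⟨i, hi, -⟩ := existsUnique_edge hx j
  have hd : Edge (c : ℍ[ℚ]) i i := by
    simp only [Edge, (Nat.cast_commute c (lineGen i)⁻¹).eq.symm, mul_assoc,
      inv_mul_cancel₀ (lineGen_ne_zero i), mul_one]
    exact natCast_mem_Hz c
  have : Edge ((c : ℍ[ℚ]) * x) k j ↔ Edge x k j :=
    ⟨fun h => by rwa [(existsUnique_edge (hc'.mul hx) j).unique h (hd.mul hi)],
      fun h => by
        rw [(existsUnique_edge hx j).unique h hi]
        exact hd.mul hi⟩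
  simp [permMat, this]

/-- A representation of the Hurwitz quaternions of norm prime to `3`. -/
structure QRep (ι : Type) [Fintype ι] [DecidableEq ι] (j : ℕ) where
  rho : ℍ[ℚ] → Matrix ι ι ℂ
  rho_one : rho 1 = 1
  rho_mul : ∀ x y, Good x → Good y → rho (x * y) = rho x * rho y
  rho_natMul : ∀ (c : ℕ) x, ¬3 ∣ c → Good x → rho ((c : ℍ[ℚ]) * x) = (c : ℂ) ^ j • rho x

theorem symMat_mul_good (j : ℕ) (x : ℍ[ℚ]) {y : ℍ[ℚ]} (hy : y ≠ 0) :
    symMat j (toMat (x * y)) = symMat j (toMat x) * symMat j (toMat y) := by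
  rw [toMat_mul, symMat_mul j]
  rw [det_toMat]
  exact_mod_cast normSq_ne_zero.2 hy

theorem symMat_natMul (j c : ℕ) {x : ℍ[ℚ]} (hx : x ≠ 0) :
    symMat j (toMat ((c : ℍ[ℚ]) * x)) = (c : ℂ) ^ j • symMat j (toMat x) := by
  have hd : toMat (c : ℍ[ℚ]) = !![(c : ℂ), 0; 0, (c : ℂ)] := by
    ext a b
    fin_cases a <;> fin_cases b <;> simp [toMat]
  have e : symMat j (toMat (c : ℍ[ℚ])) =
      (c : ℂ) ^ j • (1 : Matrix (Fin (j + 1)) (Fin (j + 1)) ℂ) := by
    ext k l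
    have hk : (k : ℕ) ≤ j := Nat.le_of_lt_succ k.2
    rw [hd]
    show ((Polynomial.C (c : ℂ) * Polynomial.X + Polynomial.C 0) ^ (k : ℕ) *
      (Polynomial.C 0 * Polynomial.X + Polynomial.C (c : ℂ)) ^ (j - k)).coeff l = _
    rw [Polynomial.C_0, zero_mul, add_zero, zero_add, mul_pow, ← Polynomial.C_pow,
      ← Polynomial.C_pow, mul_comm _ (Polynomial.C ((c : ℂ) ^ (j - k))), ← mul_assoc,
      ← Polynomial.C_mul, ← pow_add, Nat.sub_add_cancel hk, Polynomial.coeff_C_mul_X_pow]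
    simp [Matrix.one_apply, Fin.ext_iff, eq_comm]
  rw [symMat_mul_good j _ hx, e, Matrix.smul_mul, Matrix.one_mul]

/-- The binary forms of degree `j`. -/
def symRep (j : ℕ) : QRep (Fin (j + 1)) j where
  rho x := symMat j (toMat x)
  rho_one := by rw [toMat_one, symMat_one]
  rho_mul x _ _ hy := symMat_mul_good j x hy.ne_zero
  rho_natMul c _ _ hx := symMat_natMul j c hx.ne_zero

/-- The binary forms of degree `j` on the four lines. -/
def lineRep (j : ℕ) : QRep (Fin 4 × Fin (j + 1)) j where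
  rho x := permMat x ⊗ₖ symMat j (toMat x)
  rho_one := by rw [permMat_one, toMat_one, symMat_one, Matrix.one_kronecker_one]
  rho_mul x y hx hy := by
    rw [permMat_mul hx hy, symMat_mul_good j x hy.ne_zero, Matrix.mul_kronecker_mul]
  rho_natMul c x hc hx := by
    rw [permMat_natMul hc hx, symMat_natMul j c hx.ne_zero, Matrix.kronecker_smul]

theorem edge_self_iff {p : (_ : ℤ) × (ℤ × ℤ × ℤ)} (hp : toQ p ∈ Hz) (j : Fin 4) :
    Edge (toQ p) j j ↔ Fixes j p.2 := by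
  rw [edge_iff hp]
  have key : ∀ t x y z : ZMod 3, ∀ j : Fin 4,
      edgeVec j j (t, x, y, z) = 0 ↔ rotT j (x, y, z) = 0 := by decide +kernel
  exact key _ _ _ _ j

theorem trace_permMat {p : (_ : ℤ) × (ℤ × ℤ × ℤ)} (hp : toQ p ∈ Hz) :
    (permMat (toQ p)).trace = (fixCount p.2 : ℂ) := by
  rw [Matrix.trace, fixCount, Finset.card_filter, Nat.cast_sum]
  exact Finset.sum_congr rfl fun j _ => by simp [permMat, edge_self_iff hp]

end FA.QuaternionJLSystems

end
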