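import Fermat.Agent.QuaternionJLSystems.Operators
import Fermat.Agent.QuaternionJLSystems.Charpoly
import Fermat.Agent.QuaternionClasses.Example
import Mathlib.LinearAlgebra.Eigenspace.Charpoly

/-!
# The systems of eigenvalues correspond

The curve of discriminant `6` and the two definite orders have one multiplication table for the
indices prime to `6`, so the comparison of the traces passes to all powers of all combinations,
and so to their characteristic polynomials.
-/

set_option autoImplicit false
set_option linter.unusedSectionVars false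
set_option linter.style.haveILetI false

noncomputable section

open Quaternion
open scoped Quaternion
open FA.CocompactForms FA.QuaternionHecke FA.QuaternionArith
open FA.QuaternionJL

namespace FA.QuaternionJLSystems

variable {m : ℕ}

/-- **The table on the curve.** -/
theorem table_curve (hm : 2 ≤ m) : HeckeTable (arith m) (2 * m - 2 + 1) where
  one := arith_one m
  mul _ _ _ _ hab := arith_mul m hab
  prime_pow p hp h6 r := by
    haveI : Fact (p : ℕ).Prime := ⟨hp⟩
    have h5 : 5 ≤ (p : ℕ) := by
      have := hp.two_le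
      have h := prime_ne h6
      by_contra hlt
      interval_cases hq : (p : ℕ) <;> first | omega | exact absurd hp (by decide)
    rw [arith_prime_pow m hp r, card_reps_prime (p : ℕ) h5]
    congr 2
    push_cast
    rw [add_sub_cancel_right, ← pow_succ', show 2 * (m - 1) + 1 = 2 * m - 2 + 1 by omega]

/-- The operators on the three spaces together. -/
def jointHecke (m : ℕ) (n : ℕ+) :
    Module.End ℂ (forms orderUnits ((2 * m : ℕ) : ℤ)) ×
      Module.End ℂ (hurwitzData.forms (2 * m - 2)) ×
      Module.End ℂ (eichlerData.forms (2 * m - 2)) :=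
  (arith m n, hurwitzData.hecke (2 * m - 2) n, eichlerData.hecke (2 * m - 2) n)

theorem table_joint (hm : 2 ≤ m) : HeckeTable (jointHecke m) (2 * m - 2 + 1) where
  one := Prod.ext (table_curve hm).one (Prod.ext (table_hurwitz _).one (table_eichler _).one)
  mul a b ha hb hab := Prod.ext ((table_curve hm).mul a b ha hb hab)
    (Prod.ext ((table_hurwitz _).mul a b ha hb hab) ((table_eichler _).mul a b ha hb hab))
  prime_pow p hp h6 r := Prod.ext ((table_curve hm).prime_pow p hp h6 r)
    (Prod.ext ((table_hurwitz _).prime_pow p hp h6 r) ((table_eichler _).prime_pow p hp h6 r))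

theorem trace_joint (hm : 2 ≤ m) :
    ∀ X ∈ tableSpan (jointHecke m),
      LinearMap.trace ℂ _ X.1 + 2 * LinearMap.trace ℂ _ X.2.1 = LinearMap.trace ℂ _ X.2.2 := by
  intro X hX
  induction hX using Submodule.span_induction with
  | mem X hX =>
    obtain ⟨n, -, rfl⟩ := hX
    show LinearMap.trace ℂ _ (arith m n) + _ = _
    rw [arith, map_smul, smul_eq_mul, transfer hm n]
    exact sub_add_cancel _ _
  | zero => simp
  | add X Y _ _ hX hY =>
    simp only [Prod.fst_add, Prod.snd_add, map_add]
    linear_combination hX + hY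
  | smul z X _ hX =>
    simp only [Prod.smul_fst, Prod.smul_snd, map_smul, smul_eq_mul]
    linear_combination z * hX

theorem linearCombination_joint (c : ℕ+ →₀ ℂ) :
    Finsupp.linearCombination ℂ (jointHecke m) c =
      (Finsupp.linearCombination ℂ (arith m) c,
        Finsupp.linearCombination ℂ (hurwitzData.hecke (2 * m - 2)) c,
        Finsupp.linearCombination ℂ (eichlerData.hecke (2 * m - 2)) c) := by
  simp only [Finsupp.linearCombination_apply, Finsupp.sum]
  exact Prod.ext (by simp [Prod.fst_sum, jointHecke])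
    (Prod.ext (by simp [Prod.fst_sum, Prod.snd_sum, jointHecke])
      (by simp [Prod.snd_sum, jointHecke]))

/-- **All powers.** -/
theorem trace_powers (hm : 2 ≤ m) {c : ℕ+ →₀ ℂ} (hc : ∀ n ∈ c.support, (n : ℕ).Coprime 6)
    (r : ℕ) :
    LinearMap.trace ℂ _ ((Finsupp.linearCombination ℂ (arith m) c) ^ r) +
        2 * LinearMap.trace ℂ _
          ((Finsupp.linearCombination ℂ (hurwitzData.hecke (2 * m - 2)) c) ^ r) =
      LinearMap.trace ℂ _
        ((Finsupp.linearCombination ℂ (eichlerData.hecke (2 * m - 2)) c) ^ r) := by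
  have h := trace_joint hm _ ((table_joint hm).pow_mem hc r)
  rw [linearCombination_joint] at h
  exact h

theorem prodMap_pow {U W : Type*} [AddCommGroup U] [Module ℂ U] [AddCommGroup W] [Module ℂ W]
    (f : Module.End ℂ U) (g : Module.End ℂ W) :
    ∀ r : ℕ, LinearMap.prodMap f g ^ r = LinearMap.prodMap (f ^ r) (g ^ r)
  | 0 => by simp only [pow_zero]; exact LinearMap.prodMap_one.symm
  | r + 1 => by rw [pow_succ, prodMap_pow f g r, pow_succ, pow_succ, LinearMap.prodMap_mul]

/-- **The characteristic polynomials.** -/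
theorem charpoly_transfer (hm : 2 ≤ m) {c : ℕ+ →₀ ℂ}
    (hc : ∀ n ∈ c.support, (n : ℕ).Coprime 6) :
    haveI := finiteDimensional_forms ((2 * m : ℕ) : ℤ)
    (Finsupp.linearCombination ℂ (arith m) c).charpoly *
        (Finsupp.linearCombination ℂ (hurwitzData.hecke (2 * m - 2)) c).charpoly ^ 2 =
      (Finsupp.linearCombination ℂ (eichlerData.hecke (2 * m - 2)) c).charpoly := by
  haveI := finiteDimensional_forms ((2 * m : ℕ) : ℤ)
  set A := Finsupp.linearCombination ℂ (arith m) c with hA
  set B := Finsupp.linearCombination ℂ (hurwitzData.hecke (2 * m - 2)) c with hB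
  rw [pow_two, ← LinearMap.charpoly_prodMap B B, ← LinearMap.charpoly_prodMap A]
  refine linearMap_charpoly_eq fun r => ?_
  rw [prodMap_pow, prodMap_pow, LinearMap.trace_prodMap', LinearMap.trace_prodMap',
    ← trace_powers hm hc r]
  ring

/-- **Eigenvalues transfer.** -/
theorem eigenvalue_transfer (hm : 2 ≤ m) {c : ℕ+ →₀ ℂ}
    (hc : ∀ n ∈ c.support, (n : ℕ).Coprime 6) {a : ℕ+ → ℂ}
    {f : forms orderUnits ((2 * m : ℕ) : ℤ)} (hf : f ≠ 0)
    (ha : ∀ n ∈ c.support, arith m n f = a n • f) :
    Module.End.HasEigenvalue (Finsupp.linearCombination ℂ (eichlerData.hecke (2 * m - 2)) c)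
      (∑ n ∈ c.support, c n * a n) := by
  haveI := finiteDimensional_forms ((2 * m : ℕ) : ℤ)
  have he : Module.End.HasEigenvalue (Finsupp.linearCombination ℂ (arith m) c)
      (∑ n ∈ c.support, c n * a n) := by
    refine Module.End.hasEigenvalue_of_hasEigenvector (x := f)
      (Module.End.hasEigenvector_iff.2 ⟨Module.End.mem_eigenspace_iff.2 ?_, hf⟩)
    rw [Finsupp.linearCombination_apply, Finsupp.sum, LinearMap.sum_apply, Finset.sum_smul]
    exact Finset.sum_congr rfl fun n hn => by rw [LinearMap.smul_apply, ha n hn, smul_smul]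
  rw [Module.End.hasEigenvalue_iff_isRoot_charpoly] at he ⊢
  rw [← charpoly_transfer hm hc, Polynomial.IsRoot.def, Polynomial.eval_mul, he.eq_zero, zero_mul]

/-- **Weight four.** -/
theorem weight_four :
    Module.finrank ℂ (hurwitzData.forms 2) = 0 ∧ Module.finrank ℂ (eichlerData.forms 2) = 1 ∧
      LinearMap.trace ℂ (eichlerData.forms 2) (eichlerData.hecke 2 5) = 6 := by
  have h1 : Module.finrank ℂ (hurwitzData.forms 2) = 0 := by
    have h := trace_hurwitz 2 1
    have hz : ∑ t ∈ traces 1, ((FA.HurwitzQ.reps (4 * ((1 : ℕ) : ℤ) - t ^ 2).toNat).card : ℤ) *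
        QuaternionClasses.lucas t ((1 : ℕ) : ℤ) 2 = 0 := by decide +kernel
    have hz' := congrArg (fun z : ℤ => (z : ℂ)) hz
    push_cast at hz'
    rw [← NormData.finrank_forms, PNat.one_coe] at h
    push_cast at h
    rw [hz', mul_zero] at h
    exact_mod_cast h
  refine ⟨h1, ?_, ?_⟩
  · have h := FA.QuaternionJL.dimension_transfer (m := 2) le_rfl
    rw [QuaternionClasses.finrank_weight_four, show 2 * 2 - 2 = 2 from rfl, h1] at h
    exact h
  · have h := transfer (m := 2) le_rfl (5 : ℕ+)
    rw [QuaternionClasses.trace_five] at h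
    have hB : hurwitzData.hecke (2 * 2 - 2) 5 = 0 := LinearMap.ext fun v => by
      haveI : Subsingleton (hurwitzData.forms (2 * 2 - 2)) :=
        (Module.finrank_zero_iff (R := ℂ)).1 h1
      exact Subsingleton.elim _ _
    rw [hB, map_zero, mul_zero, sub_zero] at h
    exact h.symm

end FA.QuaternionJLSystems

end
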